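import Fermat.Agent.S17.TP.AbsM
import Fermat.Agent.S17.TP.AbsA
import Fermat.Agent.S17.TP.AbsZ

/-!
# S17/HA : import shim.  The five abstract statements `abs_M`, `abs_A_le`, `abs_A_ge`, `isZClosed_Zcone`, `isCone_Zcone` are now PROVED in
`TP/AbsM.lean`, `TP/AbsA.lean`, `TP/AbsZ.lean` (namespace `Fermat.Agent.S17.TP`, opened in all HA files).  This file only re-exports these
imports; the namespace `Fermat.Agent.S17.HA.AbsStub` is kept (with one trivial lemma) so that the HA files that mention it still compile.
-/

set_option autoImplicit false

namespace Fermat.Agent.S17.HA.AbsStub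

theorem shim_trivial : True := trivial

end Fermat.Agent.S17.HA.AbsStub
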